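/-
S31 : pure algebra behind the "faithfulness" clause: if `𝕋` embeds into the endomorphisms of a
lattice `Λ`, an element of `𝕋` which kills `Λ / p ^ n` lies in `p ^ (n - c) 𝕋`.
-/
import Mathlib

set_option autoImplicit false

namespace Fermat.Agent.S31

/-- **Artin-Rees** for an injective additive map into a finitely generated abelian group. -/
theorem exists_shift {𝕋 E : Type*} [AddCommGroup 𝕋] [AddCommGroup E] [Module.Finite ℤ E]
    (r : 𝕋 →+ E) (hr : Function.Injective r) (p : ℕ) :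
    ∃ c : ℕ, ∀ (n : ℕ) (x : 𝕋), (∃ y : E, r x = (p ^ n : ℕ) • y) →
      ∃ z : 𝕋, x = (p ^ (n - c) : ℕ) • z := by
  let I : Ideal ℤ := Ideal.span {(p : ℤ)}
  let N : Submodule ℤ E := LinearMap.range r.toIntLinearMap
  have hI : ∀ (m : ℕ) (W : Submodule ℤ E) (w : E), w ∈ I ^ m • W ↔ ∃ y ∈ W, w = (p ^ m : ℕ) • y := by
    intro m W w
    rw [Ideal.span_singleton_pow, Submodule.ideal_span_singleton_smul,
      Submodule.mem_smul_pointwise_iff_exists]
    constructor
    · rintro ⟨y, hy, rfl⟩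
      refine ⟨y, hy, ?_⟩
      rw [← natCast_zsmul]
      push_cast
      rfl
    · rintro ⟨y, hy, rfl⟩
      refine ⟨y, hy, ?_⟩
      rw [← natCast_zsmul]
      push_cast
      rfl
  obtain ⟨c, hc⟩ := Ideal.exists_pow_inf_eq_pow_smul I N
  refine ⟨c, fun n x hx => ?_⟩
  by_cases hn : c ≤ n
  · obtain ⟨y, hy⟩ := hx
    have h1 : r x ∈ I ^ n • (⊤ : Submodule ℤ E) ⊓ N :=
      ⟨(hI n ⊤ _).mpr ⟨y, trivial, hy⟩, ⟨x, rfl⟩⟩
    rw [hc n hn, hI] at h1
    obtain ⟨w, ⟨-, ⟨z, hz⟩⟩, hw⟩ := h1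
    refine ⟨z, hr ?_⟩
    rw [hw, map_nsmul]
    congr 1
    exact hz.symm
  · refine ⟨x, ?_⟩
    rw [Nat.sub_eq_zero_of_le (le_of_not_ge hn), pow_zero, one_smul]

open Polynomial

/-- An endomorphism of a lattice with image in `m Λ` is divisible by `m`. -/
theorem exists_eq_nsmul_end {Λ : Type*} [AddCommGroup Λ] [Module.Free ℤ Λ]
    (m : ℕ) (D : Module.End ℤ Λ) (h : ∀ x, ∃ y, D x = m • y) :
    ∃ y : Module.End ℤ Λ, D = m • y := by
  classical
  let b := Module.Free.chooseBasis ℤ Λ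
  choose g hg using h
  refine ⟨b.constr ℤ fun i => g (b i), ?_⟩
  apply b.ext
  intro i
  rw [LinearMap.smul_apply, Module.Basis.constr_basis, hg]

theorem intertwine_aeval {Λ M : Type*} [AddCommGroup Λ] [AddCommGroup M] (ι : Λ →+ M)
    (a : Module.End ℤ Λ) (b : AddMonoid.End M) (h : ∀ x, ι (a x) = b (ι x)) (f : ℤ[X]) (x : Λ) :
    ι (aeval a f x) = aeval b f (ι x) := by
  have hpow : ∀ (n : ℕ) (x : Λ), ι ((a ^ n) x) = (b ^ n) (ι x) := by
    intro n
    induction n with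
    | zero => intro x; simp
    | succ n ih =>
      intro x
      rw [pow_succ, pow_succ, Module.End.mul_apply, ih, h]
      rfl
  induction f using Polynomial.induction_on' with
  | add f g hf hg =>
    rw [map_add, map_add, LinearMap.add_apply, map_add, hf, hg]
    rfl
  | monomial n c =>
    rw [aeval_monomial, aeval_monomial]
    have e1 : (algebraMap ℤ (Module.End ℤ Λ) c * a ^ n) x = c • (a ^ n) x := by
      rw [Module.End.mul_apply, Module.algebraMap_end_apply]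
    have e2 : (algebraMap ℤ (AddMonoid.End M) c * b ^ n) (ι x) = c • (b ^ n) (ι x) := by
      show (algebraMap ℤ (AddMonoid.End M) c) ((b ^ n) (ι x)) = _
      simp [AddMonoid.End.intCast_apply]
    rw [e1, e2, map_zsmul, hpow]

/-- **Faithfulness clause from a lattice.** -/
theorem faith_of_lattice {Λ 𝕋 : Type*} [AddCommGroup Λ] [Module.Free ℤ Λ] [Module.Finite ℤ Λ]
    [CommRing 𝕋] (r : 𝕋 →+* Module.End ℤ Λ) (hr : Function.Injective r) (p : ℕ) :
    ∃ c : ℕ, ∀ (n : ℕ) (M : Type) [AddCommGroup M] (ι : Λ →+ M)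
      (_ : ∀ x, ι x = 0 → ∃ y, x = (p ^ n : ℕ) • y) (t t' : 𝕋) (b b' : AddMonoid.End M)
      (_ : ∀ x, ι (r t x) = b (ι x)) (_ : ∀ x, ι (r t' x) = b' (ι x)) (f f' : ℤ[X]),
      aeval b f = aeval b' f' → ∃ z : 𝕋, aeval t f - aeval t' f' = (p ^ (n - c) : ℕ) • z := by
  obtain ⟨c, hc⟩ := exists_shift (r : 𝕋 →+ Module.End ℤ Λ) hr p
  refine ⟨c, fun n M _ ι hker t t' b b' hb hb' f f' hff => hc n _ ?_⟩
  apply exists_eq_nsmul_end
  intro x
  apply hker
  have e : ∀ (s : 𝕋) (g : ℤ[X]), r (aeval s g) = aeval (r s) g := by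
    intro s g
    exact (aeval_algHom_apply (r.toIntAlgHom) s g).symm
  show ι (r (aeval t f - aeval t' f') x) = 0
  rw [map_sub, e, e, LinearMap.sub_apply, map_sub, intertwine_aeval ι _ b hb,
    intertwine_aeval ι _ b' hb', hff, sub_self]

end Fermat.Agent.S31
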