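/-
S31 : action of Frobenius elements and inertia groups on roots of unity of order prime to the
residue characteristic.
-/
import Mathlib
import Fermat.Agent.S13.Minkowski
import Fermat.Prelude.Def_EllipticCurve_FrobeniusTrace

set_option autoImplicit false

namespace Fermat.Agent.S31

/-- `ℚ̄`. -/
abbrev Qb : Type := AlgebraicClosure ℚ

/-- The absolute Galois group of `ℚ`. -/
abbrev GQ : Type := Qb ≃ₐ[ℚ] Qb

/-- A Frobenius element at `A` is the `ℓ`-th power map modulo the maximal ideal. -/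
theorem frob_sub_pow_mem_nonunits (A : ValuationSubring Qb) (φ : GQ) (ℓ : ℕ)
    (hφ : A.IsFrobeniusAt φ ℓ) {z : Qb} (hz : z ∈ A) : φ z - z ^ ℓ ∈ A.nonunits := by
  obtain ⟨hσ, h⟩ := hφ
  have h2 := h (IsLocalRing.residue A ⟨z, hz⟩)
  rw [← IsLocalRing.ResidueField.residue_smul, ← map_pow] at h2
  have h3 : ((⟨φ, hσ⟩ : A.decompositionSubgroup ℚ) • (⟨z, hz⟩ : A)) - (⟨z, hz⟩ : A) ^ ℓ ∈
      IsLocalRing.maximalIdeal A := by
    rw [← IsLocalRing.residue_eq_zero_iff, map_sub, h2, sub_self]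
  rw [ValuationSubring.mem_nonunits_iff]
  rw [A.valuation_lt_one_iff] at h3
  exact h3

theorem mem_of_pow_eq_one (A : ValuationSubring Qb) {m : ℕ} (hm : m ≠ 0) {α : Qb}
    (hα : α ^ m = 1) : α ∈ A := by
  apply Fermat.Agent.S54.mem_of_isIntegral
  refine ⟨Polynomial.X ^ m - 1, Polynomial.monic_X_pow_sub_C 1 hm, ?_⟩
  simp [hα]

/-- Two `m`-th roots of unity which are congruent modulo a place not dividing `m` are equal. -/
theorem eq_of_sub_mem_nonunits (A : ValuationSubring Qb) {ℓ : ℕ} (hℓ : ℓ.Prime)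
    (hA : A.LiesOverPrime ℓ) {m : ℕ} (hm : ¬ ℓ ∣ m) {α β : Qb} (hα : α ^ m = 1) (hβ : β ^ m = 1)
    (h : α - β ∈ A.nonunits) : α = β := by
  by_contra hne
  have hm0 : m ≠ 0 := fun h0 => hm (h0 ▸ dvd_zero ℓ)
  have hαA := mem_of_pow_eq_one A hm0 hα
  have hβA := mem_of_pow_eq_one A hm0 hβ
  -- work in `A`
  set a : A := ⟨α, hαA⟩ with ha
  set b : A := ⟨β, hβA⟩ with hb
  have hs : (∑ i ∈ Finset.range m, a ^ i * b ^ (m - 1 - i)) = 0 := by
    have h1 := (Commute.all a b).geom_sum₂_mul m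
    have h2 : a ^ m - b ^ m = 0 := by
      apply Subtype.ext
      simp [ha, hb, hα, hβ]
    rw [h2] at h1
    rcases mul_eq_zero.mp h1 with h3 | h3
    · exact h3
    · exfalso
      apply hne
      have := congrArg Subtype.val h3
      simpa [ha, hb, sub_eq_zero] using this
  have hres : IsLocalRing.residue A a = IsLocalRing.residue A b := by
    rw [← sub_eq_zero, ← map_sub, IsLocalRing.residue_eq_zero_iff, A.valuation_lt_one_iff]
    rw [ValuationSubring.mem_nonunits_iff] at h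
    exact h
  have h4 := congrArg (IsLocalRing.residue A) hs
  rw [map_sum, map_zero] at h4
  have h5 : ∀ i ∈ Finset.range m, IsLocalRing.residue A (a ^ i * b ^ (m - 1 - i)) =
      IsLocalRing.residue A b ^ (m - 1) := by
    intro i hi
    rw [map_mul, map_pow, map_pow, hres, ← pow_add]
    congr 1
    have := Finset.mem_range.mp hi
    omega
  rw [Finset.sum_congr rfl h5, Finset.sum_const, Finset.card_range, nsmul_eq_mul] at h4
  have hbu : IsLocalRing.residue A b ^ (m - 1) ≠ 0 := by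
    apply pow_ne_zero
    intro h0
    have h6 : IsLocalRing.residue A (b ^ m) = 0 := by rw [map_pow, h0, zero_pow hm0]
    have h7 : b ^ m = 1 := by
      apply Subtype.ext
      simp [hb, hβ]
    rw [h7, map_one] at h6
    exact one_ne_zero h6
  have h8 : ((m : ℕ) : IsLocalRing.ResidueField A) = 0 := (mul_eq_zero.mp h4).resolve_right hbu
  have h9 : IsLocalRing.residue A ((m : ℕ) : A) = 0 := by rw [map_natCast]; exact h8
  rw [IsLocalRing.residue_eq_zero_iff, A.valuation_lt_one_iff] at h9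
  have h10 : ((m : ℤ) : Qb) ∈ A.nonunits := by
    rw [ValuationSubring.mem_nonunits_iff]
    simpa using h9
  rw [Fermat.Agent.S13.intCast_mem_nonunits_iff hℓ hA] at h10
  exact hm (by exact_mod_cast h10)

/-- A Frobenius element at `ℓ` raises roots of unity of order prime to `ℓ` to the `ℓ`-th power. -/
theorem frob_apply_root (A : ValuationSubring Qb) {ℓ : ℕ} (hℓ : ℓ.Prime)
    (hA : A.LiesOverPrime ℓ) (φ : GQ) (hφ : A.IsFrobeniusAt φ ℓ) {m : ℕ} (hm : ¬ ℓ ∣ m) {ζ : Qb}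
    (hζ : ζ ^ m = 1) : φ ζ = ζ ^ ℓ := by
  have hm0 : m ≠ 0 := fun h0 => hm (h0 ▸ dvd_zero ℓ)
  refine eq_of_sub_mem_nonunits A hℓ hA hm ?_ ?_
    (frob_sub_pow_mem_nonunits A φ ℓ hφ (mem_of_pow_eq_one A hm0 hζ))
  · rw [← map_pow, hζ, map_one]
  · rw [← pow_mul, mul_comm, pow_mul, hζ, one_pow]

theorem frob_pow_apply_root (A : ValuationSubring Qb) {ℓ : ℕ} (hℓ : ℓ.Prime)
    (hA : A.LiesOverPrime ℓ) (φ : GQ) (hφ : A.IsFrobeniusAt φ ℓ) {m : ℕ} (hm : ¬ ℓ ∣ m) {ζ : Qb}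
    (hζ : ζ ^ m = 1) (j : ℕ) : (φ ^ j) ζ = ζ ^ (ℓ ^ j) := by
  induction j with
  | zero => simp
  | succ j ih =>
    rw [pow_succ', AlgEquiv.mul_apply, ih, map_pow, frob_apply_root A hℓ hA φ hφ hm hζ, ← pow_mul,
      pow_succ']

/-- Inertia at `q` fixes the roots of unity of order prime to `q`. -/
theorem inertia_apply_root (A : ValuationSubring Qb) {q : ℕ} (hq : q.Prime)
    (hA : A.LiesOverPrime q) (τ : GQ) (hτ : τ ∈ A.inertiaSubgroupIn ℚ) {m : ℕ} (hm : ¬ q ∣ m)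
    {ζ : Qb} (hζ : ζ ^ m = 1) : τ ζ = ζ := by
  have hm0 : m ≠ 0 := fun h0 => hm (h0 ▸ dvd_zero q)
  refine eq_of_sub_mem_nonunits A hq hA hm ?_ hζ
    (Fermat.Agent.S13.sub_mem_nonunits_of_mem_inertia hτ (mem_of_pow_eq_one A hm0 hζ))
  rw [← map_pow, hζ, map_one]

end Fermat.Agent.S31
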