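/-
S31 : Dickson polynomials: `u^j + v^j` as an integer polynomial in `u + v` when `u v = c`.
-/
import Mathlib
import Fermat.Agent.Lib.FrobDensity.Apps

set_option autoImplicit false

namespace Fermat.Agent.S31

open Polynomial

/-- `u^j + v^j = D_j(u+v; c)` if `u`, `v` commute and `u v = c`. -/
theorem aeval_dickson_add {E : Type*} [Ring E] (u v : E) (huv : Commute u v) (c : ℤ)
    (hc : u * v = (c : E)) (j : ℕ) :
    aeval (u + v) (dickson 1 c j) = u ^ j + v ^ j := by
  induction j using Nat.twoStepInduction with
  | zero =>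
    simp only [dickson_zero, pow_zero]
    norm_num
    exact map_ofNat (aeval (u + v)) 2
  | one => simp
  | more j h0 h1 =>
    rw [dickson_add_two, map_sub, map_mul, map_mul, aeval_X, aeval_C, h0, h1]
    have hvu : v * u = (c : E) := by rw [← huv.eq, hc]
    have e1 : (algebraMap ℤ E) c = (c : E) := rfl
    rw [e1]
    have a1 : u * v ^ (j + 1) = (c : E) * v ^ j := by rw [pow_succ', ← mul_assoc, hc]
    have a2 : v * u ^ (j + 1) = (c : E) * u ^ j := by rw [pow_succ', ← mul_assoc, hvu]
    have a3 : u * u ^ (j + 1) = u ^ (j + 2) := by rw [← pow_succ']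
    have a4 : v * v ^ (j + 1) = v ^ (j + 2) := by rw [← pow_succ']
    rw [add_mul, mul_add, mul_add, a1, a2, a3, a4, mul_add]
    abel

/-- the trace of `f ^ j` on a free module of rank two is `D_j(tr f; det f)`. -/
theorem trace_pow_eq_aeval_dickson {R : Type*} [CommRing R] [Nontrivial R] {V : Type*}
    [AddCommGroup V] [Module R V] [Module.Free R V] [Module.Finite R V]
    (hV : Module.finrank R V = 2) (f : Module.End R V) (c : ℤ) (hc : LinearMap.det f = (c : R))
    (j : ℕ) :
    LinearMap.trace R V (f ^ j) = aeval (LinearMap.trace R V f) (dickson 1 c j) := by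
  induction j using Nat.twoStepInduction with
  | zero =>
    simp only [dickson_zero, pow_zero]
    rw [LinearMap.trace_one, hV]
    norm_num
    rw [show (2 : ℤ[X]) = C 2 from rfl, aeval_C]
    simp
  | one => simp
  | more j h0 h1 =>
    rw [FD.trace_pow_rec hV, dickson_add_two, map_sub, map_mul, map_mul, aeval_X, aeval_C, h0, h1,
      hc]
    rfl

end Fermat.Agent.S31
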