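/-
S31 : a residually absolutely irreducible representation over a local ring spans the full
endomorphism algebra; consequently an element `τ` with `tr ρ(g τ) = tr ρ(g)` for all `g` acts
trivially.
-/
import Mathlib
import Fermat.Agent.S53.Burnside
import Fermat.Prelude.Def_GaloisRep_Adic

set_option autoImplicit false

namespace Fermat.Agent.S31

open TensorProduct IsLocalRing

/-- **Burnside** in `End` form. -/
theorem span_residual_eq_top {k : Type} [Field k] (ρbar : ResidualGaloisRep k)
    (habs : ρbar.IsAbsolutelyIrreducible) :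
    Submodule.span k (Set.range ρbar.ρ) = ⊤ := by
  obtain ⟨Mbar, hf, ⟨e⟩, hspan⟩ := Fermat.Agent.S53.exists_matrix_form ρbar habs
  let E : ρbar.V ≃ₗ[k] (Fin 2 → k) := e.toLinearEquiv
  have hE : ∀ σ x, E (ρbar.ρ σ x) = (Mbar σ).mulVec (E x) := fun σ x => e.map_apply σ x
  let Φ : Matrix (Fin 2) (Fin 2) k ≃ₗ[k] Module.End k ρbar.V :=
    (Matrix.toLin' : Matrix (Fin 2) (Fin 2) k ≃ₗ[k] _).trans E.symm.conj
  have hΦ : ∀ σ, Φ (Mbar σ) = ρbar.ρ σ := by
    intro σ
    apply LinearMap.ext
    intro x
    show E.symm ((Mbar σ).mulVec (E x)) = _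
    rw [LinearEquiv.symm_apply_eq, hE]
  have h1 : Set.range ρbar.ρ = (Φ : Matrix (Fin 2) (Fin 2) k →ₗ[k] Module.End k ρbar.V) ''
      Set.range Mbar := by
    ext f
    constructor
    · rintro ⟨σ, rfl⟩
      exact ⟨Mbar σ, ⟨σ, rfl⟩, hΦ σ⟩
    · rintro ⟨_, ⟨σ, rfl⟩, rfl⟩
      exact ⟨σ, (hΦ σ).symm⟩
  rw [h1, Submodule.span_image, hspan, Submodule.map_top, LinearEquiv.range]

variable {T : Type} [CommRing T] [IsLocalRing T]

theorem mem_smul_top_of_baseChange_eq_zero {V : Type} [AddCommGroup V] [Module T V]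
    (b : Module.Basis (Fin 2) T V) (f : Module.End T V)
    (h : f.baseChange (ResidueField T) = 0) :
    f ∈ maximalIdeal T • (⊤ : Submodule T (Module.End T V)) := by
  have hY : ∀ i j, LinearMap.toMatrix b b f i j ∈ maximalIdeal T := by
    intro i j
    have h1 := LinearMap.toMatrix_baseChange (ResidueField T) f b b
    rw [h, map_zero] at h1
    have h2 := congrFun (congrFun h1 i) j
    rw [← residue_eq_zero_iff]
    simpa using h2.symm
  have hf : f = ∑ i, ∑ j, LinearMap.toMatrix b b f i j •
      (LinearMap.toMatrix b b).symm (Matrix.single i j 1) := by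
    apply (LinearMap.toMatrix b b).injective
    simp only [map_sum, map_smul, LinearEquiv.apply_symm_apply]
    conv_lhs => rw [Matrix.matrix_eq_sum_single (LinearMap.toMatrix b b f)]
    refine Finset.sum_congr rfl fun i _ => Finset.sum_congr rfl fun j _ => ?_
    rw [Matrix.smul_single, smul_eq_mul, mul_one]
  rw [hf]
  exact Submodule.sum_mem _ fun i _ => Submodule.sum_mem _ fun j _ =>
    Submodule.smul_mem_smul (hY i j) Submodule.mem_top

/-- A residually absolutely irreducible representation spans the endomorphism algebra. -/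
theorem span_eq_top (ρ : GaloisRepAdic T) (habs : ρ.residual.IsAbsolutelyIrreducible) :
    Submodule.span T (Set.range ρ.ρ) = ⊤ := by
  let b : Module.Basis (Fin 2) T ρ.V := Module.finBasisOfFinrankEq T ρ.V ρ.finrank_eq
  rw [eq_top_iff]
  refine Submodule.le_of_le_smul_of_le_jacobson_bot (I := maximalIdeal T)
    (Module.Finite.fg_top) (by rw [jacobson_eq_maximalIdeal ⊥ bot_ne_top]) ?_
  intro Y _
  let red : Module.End T ρ.V →ₗ[T] Module.End (ResidueField T) (ResidueField T ⊗[T] ρ.V) :=
    LinearMap.baseChangeHom T (ResidueField T) ρ.V ρ.V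
  have hred : ∀ f, red f = f.baseChange (ResidueField T) := fun f => rfl
  have hres : Submodule.span (ResidueField T)
      (Set.range fun σ => (ρ.ρ σ).baseChange (ResidueField T)) = ⊤ :=
    span_residual_eq_top ρ.residual habs
  have h1 : (Submodule.span T (Set.range ρ.ρ)).map red = ⊤ := by
    rw [Submodule.map_span]
    have h2 : red '' Set.range ρ.ρ = Set.range fun σ => (ρ.ρ σ).baseChange (ResidueField T) := by
      ext f
      constructor
      · rintro ⟨_, ⟨σ, rfl⟩, rfl⟩
        exact ⟨σ, rfl⟩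
      · rintro ⟨σ, rfl⟩
        exact ⟨ρ.ρ σ, ⟨σ, rfl⟩, rfl⟩
    rw [h2, ← Submodule.restrictScalars_span T (ResidueField T) residue_surjective,
      hres, Submodule.restrictScalars_top]
  have h3 : red Y ∈ (Submodule.span T (Set.range ρ.ρ)).map red := by rw [h1]; trivial
  obtain ⟨a, ha, hYa⟩ := h3
  have h4 : Y - a ∈ maximalIdeal T • (⊤ : Submodule T (Module.End T ρ.V)) := by
    apply mem_smul_top_of_baseChange_eq_zero b
    rw [← hred, map_sub, hYa, sub_self]
  have : Y = a + (Y - a) := by abel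
  rw [this]
  exact Submodule.add_mem_sup ha h4

/-- If `tr ρ(g τ) = tr ρ(g)` for all `g` then `ρ(τ) = 1`. -/
theorem eq_one_of_trace (ρ : GaloisRepAdic T) (habs : ρ.residual.IsAbsolutelyIrreducible)
    (τ : AlgebraicClosure ℚ ≃ₐ[ℚ] AlgebraicClosure ℚ)
    (h : ∀ g, LinearMap.trace T ρ.V (ρ.ρ (g * τ)) = LinearMap.trace T ρ.V (ρ.ρ g)) :
    ρ.ρ τ = 1 := by
  let b : Module.Basis (Fin 2) T ρ.V := Module.finBasisOfFinrankEq T ρ.V ρ.finrank_eq
  set X : Module.End T ρ.V := ρ.ρ τ - 1 with hX
  have h1 : ∀ Y : Module.End T ρ.V, LinearMap.trace T ρ.V (Y * X) = 0 := by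
    intro Y
    have hY : Y ∈ Submodule.span T (Set.range ρ.ρ) := by rw [span_eq_top ρ habs]; trivial
    induction hY using Submodule.span_induction with
    | mem y hy =>
      obtain ⟨g, rfl⟩ := hy
      rw [hX, mul_sub, mul_one, ← map_mul, map_sub, h, sub_self]
    | zero => simp
    | add x y _ _ hx hy => rw [add_mul, map_add, hx, hy, add_zero]
    | smul c x _ hx => rw [smul_mul_assoc, map_smul, hx, smul_zero]
  have h2 : LinearMap.toMatrix b b X = 0 := by
    ext i j
    have h3 := h1 ((LinearMap.toMatrix b b).symm (Matrix.single j i 1))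
    rw [LinearMap.trace_eq_matrix_trace T b, Module.End.mul_eq_comp, LinearMap.toMatrix_comp b b b,
      LinearEquiv.apply_symm_apply] at h3
    rw [Matrix.trace_single_mul] at h3
    simpa using h3
  have h3 : X = 0 := (LinearMap.toMatrix b b).injective (by rw [h2, map_zero])
  exact sub_eq_zero.mp h3

end Fermat.Agent.S31
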