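/-
S31 : the abstract core.  A residually absolutely irreducible representation `ρ` over a separated
local ring `T` with Frobenius characteristic polynomials `X² - a_ℓ X + ℓ` is unramified at `q` as
soon as there are "test modules": finite level Galois modules `M`, killed by `p ^ n`, with
operators `T_ℓ`, satisfying the Eichler-Shimura relation, unramified at `q`, and such that
relations between the `T_ℓ` on `M` imply congruences between the `a_ℓ`.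
-/
import Mathlib
import Fermat.Agent.S31.Dickson
import Fermat.Agent.S31.Cyclo
import Fermat.Agent.S31.Span

set_option autoImplicit false

namespace Fermat.Agent.S31

open Polynomial IsLocalRing

/-- A finite level Galois module with Hecke operators: Eichler-Shimura relation outside `S`,
unramified at `q`, killed by `p ^ n`. -/
structure TestModule (p : ℕ) (S : Finset ℕ) (q n : ℕ) where
  M : Type
  [inst : AddCommGroup M]
  gal : GQ →* AddMonoid.End M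
  hecke : ℕ → AddMonoid.End M
  finiteLevel : GaloisFactorsThroughFiniteLevel gal
  kill : ∀ x : M, (p ^ n) • x = 0
  es : ∀ ℓ : ℕ, ℓ.Prime → ℓ ∉ S → ∀ A : ValuationSubring Qb, A.LiesOverPrime ℓ →
    ∀ φ : GQ, A.IsFrobeniusAt φ ℓ → ∀ x : M, gal φ (gal φ x) - hecke ℓ (gal φ x) + ℓ • x = 0
  unram : ∀ A : ValuationSubring Qb, A.LiesOverPrime q → ∀ τ ∈ A.inertiaSubgroupIn ℚ, gal τ = 1

attribute [instance] TestModule.inst

theorem natCast_end_eq_of_modEq {M : Type*} [AddCommGroup M] {m a b : ℕ}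
    (hkill : ∀ x : M, m • x = 0) (hab : a ≡ b [MOD m]) :
    ((a : ℕ) : AddMonoid.End M) = ((b : ℕ) : AddMonoid.End M) := by
  have key : ∀ (c : ℕ) (x : M), c • x = (c % m) • x := by
    intro c x
    conv_lhs => rw [← Nat.div_add_mod c m, add_smul, mul_smul, hkill, zero_add]
  ext x
  rw [AddMonoid.End.natCast_apply, AddMonoid.End.natCast_apply, key a, key b, hab]

theorem modEq_of_pow_eq {K : Type*} [Field K] {ζ : K} {m a b : ℕ} (hm : m ≠ 0)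
    (hζ : IsPrimitiveRoot ζ m) (h : ζ ^ a = ζ ^ b) : a ≡ b [MOD m] := by
  have hζ0 : ζ ≠ 0 := hζ.ne_zero hm
  wlog hab : a ≤ b generalizing a b
  · exact (this h.symm (le_of_not_ge hab)).symm
  rw [Nat.modEq_iff_dvd' hab]
  apply hζ.dvd_of_pow_eq_one
  have h1 : ζ ^ b = ζ ^ a * ζ ^ (b - a) := by rw [← pow_add, Nat.add_sub_cancel' hab]
  rw [h1] at h
  exact (mul_eq_left₀ (pow_ne_zero a hζ0)).mp h.symm

theorem trace_sub_mem_of_congr {T : Type*} [CommRing T] [Nontrivial T] (I : Ideal T) {V : Type*}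
    [AddCommGroup V] [Module T V] [Module.Free T V] [Module.Finite T V]
    (hV : Module.finrank T V = 2) (f g : Module.End T V)
    (h : ∀ v, f v - g v ∈ I • (⊤ : Submodule T V)) :
    LinearMap.trace T V f - LinearMap.trace T V g ∈ I := by
  have h1 := FD.charpoly_map_quotient_eq I f g h
  rw [FD.charpoly_rank_two hV, FD.charpoly_rank_two hV] at h1
  have h2 := congrArg (fun p => p.coeff 1) h1
  rw [← Ideal.Quotient.eq]
  simpa [coeff_map, coeff_X, coeff_C] using h2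

section

variable {T : Type} [CommRing T] [IsLocalRing T] (ρ : GaloisRepAdic T) {p : ℕ} (hp : p.Prime)
  (S : Finset ℕ) (hpS : p ∈ S) (a : ℕ → T)
  (hchar : ∀ ℓ : ℕ, ℓ.Prime → ℓ ∉ S → ∀ A : ValuationSubring Qb, A.LiesOverPrime ℓ →
    ∀ φ : GQ, A.IsFrobeniusAt φ ℓ →
      LinearMap.charpoly (ρ.ρ φ) = X ^ 2 - C (a ℓ) * X + C ((ℓ : ℕ) : T))

include hp hpS hchar in
/-- Approximation of an arbitrary `g` by a power of a Frobenius element (Frobenius density). -/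
theorem approx {q n : ℕ} (Y : TestModule p S q n) (k : ℕ) (ζ : Qb) (hζ : ζ ^ (p ^ n) = 1)
    (g : GQ) :
    ∃ (ℓ j : ℕ), ℓ.Prime ∧ ℓ ∉ S ∧ g ζ = ζ ^ (ℓ ^ j) ∧
      aeval (Y.hecke ℓ) (dickson 1 ((ℓ : ℕ) : ℤ) j) =
        Y.gal g + ((ℓ ^ j : ℕ) : AddMonoid.End Y.M) * Y.gal g⁻¹ ∧
      LinearMap.trace T ρ.V (ρ.ρ g) - aeval (a ℓ) (dickson 1 ((ℓ : ℕ) : ℤ) j) ∈
        maximalIdeal T ^ k := by
  obtain ⟨L₁, hL₁, h₁⟩ := Y.finiteLevel
  obtain ⟨L₂, hL₂, h₂⟩ := ρ.isAdicContinuous k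
  have hpn : p ^ n ≠ 0 := pow_ne_zero _ hp.ne_zero
  have hζint : IsIntegral ℚ ζ :=
    ⟨X ^ (p ^ n) - 1, monic_X_pow_sub_C 1 hpn, by simp [hζ]⟩
  let L₃ : IntermediateField ℚ Qb := IntermediateField.adjoin ℚ {ζ}
  have hL₃ : FiniteDimensional ℚ L₃ := IntermediateField.adjoin.finiteDimensional hζint
  obtain ⟨ℓ, A, φ, U, hℓ, hℓS, hA, hφ, hU, -, -, ⟨j, hj⟩⟩ :=
    FD.exists_frobenius_field (L₁ ⊔ L₂ ⊔ L₃) g S
  obtain ⟨u, hu, e⟩ : ∃ u ∈ U, φ ^ j = g * u := ⟨g⁻¹ * φ ^ j, hj, by group⟩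
  have hU₁ : ∀ w ∈ U, Y.gal w = 1 := fun w hw => h₁ w fun x hx =>
    hU w hw x ((le_sup_left : L₁ ⊔ L₂ ≤ L₁ ⊔ L₂ ⊔ L₃) ((le_sup_left : L₁ ≤ L₁ ⊔ L₂) hx))
  have hℓp : ¬ ℓ ∣ p ^ n := by
    intro h
    have := (Nat.prime_dvd_prime_iff_eq hℓ hp).mp (hℓ.dvd_of_dvd_pow h)
    exact hℓS (this ▸ hpS)
  refine ⟨ℓ, j, hℓ, hℓS, ?_, ?_, ?_⟩
  · -- action on `ζ`
    rw [← frob_pow_apply_root A hℓ hA φ hφ hℓp hζ j, e, AlgEquiv.mul_apply]
    congr 1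
    exact (hU u hu ζ ((le_sup_right : L₃ ≤ L₁ ⊔ L₂ ⊔ L₃)
      (IntermediateField.mem_adjoin_simple_self ℚ ζ))).symm
  · -- the Eichler-Shimura relation
    set u₀ : AddMonoid.End Y.M := Y.gal φ with hu₀
    set w₀ : AddMonoid.End Y.M := Y.gal φ⁻¹ with hw₀
    have huw : u₀ * w₀ = 1 := by rw [hu₀, hw₀, ← map_mul, mul_inv_cancel, map_one]
    set v₀ : AddMonoid.End Y.M := Y.hecke ℓ - u₀ with hv₀
    have hvu : v₀ * u₀ = ((ℓ : ℕ) : AddMonoid.End Y.M) := by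
      ext x
      have := Y.es ℓ hℓ hℓS A hA φ hφ x
      rw [AddMonoid.End.natCast_apply]
      show Y.hecke ℓ (Y.gal φ x) - Y.gal φ (Y.gal φ x) = ℓ • x
      have h0 : ℓ • x - (Y.hecke ℓ (Y.gal φ x) - Y.gal φ (Y.gal φ x)) =
          Y.gal φ (Y.gal φ x) - Y.hecke ℓ (Y.gal φ x) + ℓ • x := by abel
      exact (sub_eq_zero.mp (h0.trans this)).symm
    have hv : v₀ = ((ℓ : ℕ) : AddMonoid.End Y.M) * w₀ := by
      rw [← hvu, mul_assoc, huw, mul_one]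
    have huv : u₀ * v₀ = ((ℓ : ℕ) : AddMonoid.End Y.M) := by
      rw [hv, ← mul_assoc, (Nat.cast_commute ℓ u₀).eq.symm, mul_assoc, huw, mul_one]
    have hcomm : Commute u₀ v₀ := by rw [Commute, SemiconjBy, huv, hvu]
    have h3 := aeval_dickson_add u₀ v₀ hcomm ((ℓ : ℕ) : ℤ) (by rw [huv]; simp) j
    have h4 : u₀ + v₀ = Y.hecke ℓ := by rw [hv₀]; abel
    rw [h4] at h3
    rw [h3]
    have h5 : u₀ ^ j = Y.gal g := by
      rw [hu₀, ← map_pow, e, map_mul, hU₁ u hu, mul_one]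
    have h6 : w₀ ^ j = Y.gal g⁻¹ := by
      have : φ⁻¹ ^ j = u⁻¹ * g⁻¹ := by rw [inv_pow, e, mul_inv_rev]
      rw [hw₀, ← map_pow, this, map_mul, hU₁ _ (U.inv_mem hu), one_mul]
    rw [h5, hv, (Nat.cast_commute ℓ w₀).mul_pow, h6, Nat.cast_pow]
  · -- traces
    have hV := ρ.finrank_eq
    have hc := hchar ℓ hℓ hℓS A hA φ hφ
    rw [FD.charpoly_rank_two hV] at hc
    have htr : LinearMap.trace T ρ.V (ρ.ρ φ) = a ℓ := by
      have := congrArg (fun p => p.coeff 1) hc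
      simpa [coeff_X, coeff_C] using this
    have hdet : LinearMap.det (ρ.ρ φ) = (((ℓ : ℕ) : ℤ) : T) := by
      have := congrArg (fun p => p.coeff 0) hc
      simpa [coeff_X, coeff_C] using this
    rw [← htr, ← trace_pow_eq_aeval_dickson hV (ρ.ρ φ) _ hdet j]
    apply trace_sub_mem_of_congr _ hV
    intro v
    have h5 := h₂ u (fun x hx => hU u hu x
      ((le_sup_left : L₁ ⊔ L₂ ≤ L₁ ⊔ L₂ ⊔ L₃) ((le_sup_right : L₂ ≤ L₁ ⊔ L₂) hx))) v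
    have h6 : ρ.ρ g v - (ρ.ρ φ ^ j) v = - ρ.ρ g (ρ.ρ u v - v) := by
      rw [← map_pow, e, map_mul, map_sub]
      simp
    rw [h6]
    exact Submodule.neg_mem _ (Submodule.smul_top_le_comap_smul_top _ (ρ.ρ g) h5)

include hp hpS hchar in
/-- **S31, abstract core.** -/
theorem core (hsep : ⨅ n : ℕ, maximalIdeal T ^ n = ⊥)
    (habs : ρ.residual.IsAbsolutelyIrreducible) (q : ℕ) (hq : q.Prime) (hqS : q ∉ S)
    (htest : ∀ k : ℕ, ∃ (n : ℕ) (Y : TestModule p S q n),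
      ∀ ℓ ℓ' : ℕ, ℓ.Prime → ℓ ∉ S → ℓ'.Prime → ℓ' ∉ S → ∀ f f' : ℤ[X],
        aeval (Y.hecke ℓ) f = aeval (Y.hecke ℓ') f' →
          aeval (a ℓ) f - aeval (a ℓ') f' ∈ maximalIdeal T ^ k) :
    ρ.IsUnramifiedAt q := by
  intro P hP τ hτ
  apply eq_one_of_trace ρ habs τ
  intro g
  rw [← sub_eq_zero, ← Ideal.mem_bot, ← hsep, Ideal.mem_iInf]
  intro k
  obtain ⟨n, Y, hfaith⟩ := htest k
  have hpn : p ^ n ≠ 0 := pow_ne_zero _ hp.ne_zero
  have : NeZero (p ^ n) := ⟨hpn⟩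
  obtain ⟨ζ, hζ⟩ : ∃ ζ : Qb, IsPrimitiveRoot ζ (p ^ n) :=
    HasEnoughRootsOfUnity.exists_primitiveRoot Qb (p ^ n)
  have hζ1 := hζ.pow_eq_one
  obtain ⟨ℓ, j, hℓ, hℓS, hz, hM, ht⟩ := approx ρ hp S hpS a hchar Y k ζ hζ1 g
  obtain ⟨ℓ', j', hℓ', hℓS', hz', hM', ht'⟩ := approx ρ hp S hpS a hchar Y k ζ hζ1 (g * τ)
  have hqp : ¬ q ∣ p ^ n := by
    intro h
    have := (Nat.prime_dvd_prime_iff_eq hq hp).mp (hq.dvd_of_dvd_pow h)
    exact hqS (this ▸ hpS)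
  have hmod : ℓ ^ j ≡ ℓ' ^ j' [MOD p ^ n] := by
    apply modEq_of_pow_eq hpn hζ
    rw [← hz, ← hz', AlgEquiv.mul_apply, inertia_apply_root P hq hP τ hτ hqp hζ1]
  have hτ1 : Y.gal τ = 1 := Y.unram P hP τ hτ
  have hτ2 : Y.gal τ⁻¹ = 1 := Y.unram P hP _ (Subgroup.inv_mem _ hτ)
  have heq : aeval (Y.hecke ℓ) (dickson 1 ((ℓ : ℕ) : ℤ) j) =
      aeval (Y.hecke ℓ') (dickson 1 ((ℓ' : ℕ) : ℤ) j') := by
    rw [hM, hM', map_mul, hτ1, mul_one, mul_inv_rev, map_mul, hτ2, one_mul,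
      natCast_end_eq_of_modEq Y.kill hmod]
  have h1 := hfaith ℓ ℓ' hℓ hℓS hℓ' hℓS' _ _ heq
  have h2 : LinearMap.trace T ρ.V (ρ.ρ (g * τ)) - LinearMap.trace T ρ.V (ρ.ρ g) =
      (LinearMap.trace T ρ.V (ρ.ρ (g * τ)) - aeval (a ℓ') (dickson 1 ((ℓ' : ℕ) : ℤ) j'))
      - (aeval (a ℓ) (dickson 1 ((ℓ : ℕ) : ℤ) j) - aeval (a ℓ') (dickson 1 ((ℓ' : ℕ) : ℤ) j'))
      - (LinearMap.trace T ρ.V (ρ.ρ g) - aeval (a ℓ) (dickson 1 ((ℓ : ℕ) : ℤ) j)) := by ring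
  rw [h2]
  exact Ideal.sub_mem _ (Ideal.sub_mem _ ht' h1) ht

end

end Fermat.Agent.S31
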