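/-
S31 : reduction of the statement to the input `ESInput` expected from the ES project.
-/
import Fermat.Statements.S31
import Fermat.Agent.S31.Core

set_option autoImplicit false

namespace Fermat.Agent.S31

open Polynomial IsLocalRing

/-- **The input from the ES project**: for every `n` a finite level Galois module killed by `p ^ n`
(in practice the Kummer model of `J₀(N)[p ^ n]`) with Hecke operators, Eichler-Shimura relations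
outside `S`, unramified at `q ∉ S`, on which the Hecke algebra acts faithfully up to a bounded
power of `p`. -/
def ESInput (N p : ℕ) [NeZero N] (S : Finset ℕ) : Prop :=
  ∃ c : ℕ, ∀ q : ℕ, q.Prime → q ∉ S → ∀ n : ℕ, ∃ Y : TestModule p S q n,
    ∀ (ℓ ℓ' : ℕ) (hℓ : ℓ.Prime) (hℓN : ¬ ℓ ∣ N) (hℓS : ℓ ∉ (↑S : Set ℕ))
      (hℓ' : ℓ'.Prime) (hℓN' : ¬ ℓ' ∣ N) (hℓS' : ℓ' ∉ (↑S : Set ℕ)) (f f' : ℤ[X]),
      aeval (Y.hecke ℓ) f = aeval (Y.hecke ℓ') f' →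
      ∃ z : CuspForm.heckeAlgebra N 2 (↑S : Set ℕ),
        aeval (CuspForm.heckeAlgebra.T hℓ hℓN hℓS : CuspForm.heckeAlgebra N 2 (↑S : Set ℕ)) f -
          aeval (CuspForm.heckeAlgebra.T hℓ' hℓN' hℓS' : CuspForm.heckeAlgebra N 2 (↑S : Set ℕ)) f'
            = (p ^ (n - c) : ℕ) • z

variable {p : ℕ} {N : ℕ} [NeZero N] {S : Finset ℕ}
  {𝒪 : Type} [CommRing 𝒪] [IsDomain 𝒪] [IsDiscreteValuationRing 𝒪]
  [IsAdicComplete (IsLocalRing.maximalIdeal 𝒪) 𝒪]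
  {θ : CuspForm.heckeAlgebra N 2 (↑S : Set ℕ) →+* IsLocalRing.ResidueField 𝒪}
  {T : Type} [CommRing T] [IsLocalRing T] [IsNoetherianRing T]
  [IsAdicComplete (IsLocalRing.maximalIdeal T) T] [Algebra 𝒪 T] [IsLocalHom (algebraMap 𝒪 T)]
  [Module.Finite 𝒪 T] [Module.Free 𝒪 T]

theorem of_esInput (hES : ESInput N p S) (hp : p.Prime)
    (hp𝒪 : (p : 𝒪) ∈ IsLocalRing.maximalIdeal 𝒪) (hpS : p ∈ S)
    (hNS : ∀ q : ℕ, q.Prime → q ∣ N → q ∈ S)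
    (H : CuspForm.HeckeGaloisRepDatum N (↑S : Set ℕ) 𝒪 θ T)
    (q : ℕ) (hq : q.Prime) (hqS : q ∉ S) :
    H.ρ.IsUnramifiedAt q := by
  classical
  obtain ⟨c, hc⟩ := hES
  have hN : ∀ ℓ : ℕ, ℓ.Prime → ℓ ∉ S → ¬ ℓ ∣ N := fun ℓ hℓ hℓS h => hℓS (hNS ℓ hℓ h)
  have hS' : ∀ ℓ : ℕ, ℓ ∉ S → ℓ ∉ (↑S : Set ℕ) := fun ℓ h => by simpa using h
  let a : ℕ → T := fun ℓ =>
    if h : ℓ.Prime ∧ ℓ ∉ S then H.π (CuspForm.heckeAlgebra.T h.1 (hN ℓ h.1 h.2) (hS' ℓ h.2)) else 0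
  have ha : ∀ (ℓ : ℕ) (hℓ : ℓ.Prime) (hℓS : ℓ ∉ S),
      a ℓ = H.π (CuspForm.heckeAlgebra.T hℓ (hN ℓ hℓ hℓS) (hS' ℓ hℓS)) := by
    intro ℓ hℓ hℓS
    exact dif_pos ⟨hℓ, hℓS⟩
  have hpT : (p : T) ∈ maximalIdeal T := by
    have h1 : (p : T) = algebraMap 𝒪 T (p : 𝒪) := by rw [map_natCast]
    rw [h1]
    exact map_nonunit (algebraMap 𝒪 T) _ hp𝒪
  refine core H.ρ hp S hpS a ?_ (Ideal.iInf_pow_eq_bot_of_isLocalRing _ Ideal.IsPrime.ne_top')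
    H.residual_absIrr q hq hqS ?_
  · intro ℓ hℓ hℓS A hA φ hφ
    rw [ha ℓ hℓ hℓS]
    exact H.charpoly_frob ℓ hℓ (hN ℓ hℓ hℓS) (hS' ℓ hℓS) A hA φ hφ
  · intro k
    obtain ⟨Y, hY⟩ := hc q hq hqS (k + c)
    refine ⟨k + c, Y, fun ℓ ℓ' hℓ hℓS hℓ' hℓS' f f' hff => ?_⟩
    obtain ⟨z, hz⟩ := hY ℓ ℓ' hℓ (hN ℓ hℓ hℓS) (hS' ℓ hℓS) hℓ' (hN ℓ' hℓ' hℓS') (hS' ℓ' hℓS')
      f f' hff
    have e : ∀ (s : CuspForm.heckeAlgebra N 2 (↑S : Set ℕ)) (g : ℤ[X]),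
        H.π (aeval s g) = aeval (H.π s) g := by
      intro s g
      exact (aeval_algHom_apply (H.π.toIntAlgHom) s g).symm
    have h1 := congrArg H.π hz
    rw [map_sub, e, e, ← ha ℓ hℓ hℓS, ← ha ℓ' hℓ' hℓS', map_nsmul, Nat.add_sub_cancel] at h1
    rw [h1, nsmul_eq_mul, Nat.cast_pow]
    exact Ideal.mul_mem_right _ _ (Ideal.pow_mem_pow hpT k)

end Fermat.Agent.S31
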