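/-
S31 : the input `ESInput` from the ES project (`Kum N (p ^ n)`), given CRUX.
-/
import Fermat.Agent.S31.Reduce
import Fermat.Agent.ES.Glue.Supp

set_option autoImplicit false

namespace Fermat.Agent.S31

open Polynomial Fermat.Agent.ES Fermat.Agent.ES.Glue

/-- A finite module all of whose elements are fixed by an open subgroup has finite level. -/
theorem finiteLevel_of_smooth {M : Type} [AddCommGroup M] [Finite M] (gal : GQ →* AddMonoid.End M)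
    (h : ∀ x : M, ∃ L : IntermediateField ℚ Qb, FiniteDimensional ℚ L ∧
      ∀ σ : GQ, (∀ y ∈ L, σ y = y) → gal σ x = x) :
    GaloisFactorsThroughFiniteLevel gal := by
  choose L hL hfix using h
  refine ⟨⨆ x, L x, inferInstance, fun σ hσ => ?_⟩
  ext x
  exact hfix x σ fun y hy => hσ y (le_iSup L x hy)

noncomputable section

variable (N : ℕ) [NeZero N] (m : ℕ)

/-- the Galois action on `Kum N m`, as additive endomorphisms. -/
def galEnd : GQ →* AddMonoid.End (Kum N m) where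
  toFun σ := galKum N m σ
  map_one' := AddMonoidHom.ext fun x => galKum_one x
  map_mul' σ τ := AddMonoidHom.ext fun x => galKum_mul σ τ x

/-- the Hecke operators on `Kum N m`, indexed by all natural numbers. -/
def heckeEndNat (ℓ : ℕ) : AddMonoid.End (Kum N m) :=
  if h : ℓ.Prime ∧ ¬ ℓ ∣ N then
    (haveI : NeZero ℓ := ⟨h.1.ne_zero⟩; heckeKum N ℓ h.1 h.2 m)
  else 0

theorem heckeEndNat_eq {ℓ : ℕ} [NeZero ℓ] (hℓ : ℓ.Prime) (hℓN : ¬ ℓ ∣ N) :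
    heckeEndNat N m ℓ = heckeKum N ℓ hℓ hℓN m := dif_pos ⟨hℓ, hℓN⟩

theorem equiv_heckeEndNat {ℓ : ℕ} (hℓ : ℓ.Prime) (hℓN : ¬ ℓ ∣ N) :
    addMonoidEndRingEquivInt (Kum N m) (heckeEndNat N m ℓ) = heckeT N m ⟨ℓ, hℓ, hℓN⟩ := by
  have : NeZero ℓ := ⟨hℓ.ne_zero⟩
  rw [heckeEndNat_eq N m hℓ hℓN]
  rfl

variable {N} {p : ℕ} {S : Finset ℕ}

/-- `Kum N (p ^ n)` as a test module. -/
def kumTest (hp : p.Prime) (hpS : p ∈ S) (hNS : ∀ q : ℕ, q.Prime → q ∣ N → q ∈ S) (q n : ℕ)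
    (hq : q.Prime) (hqS : q ∉ S)
    (hcrux : ∀ ℓ : ℕ, ℓ.Prime → ¬ ℓ ∣ N * p ^ n → Crux N ℓ (p ^ n)) : TestModule p S q n where
  M := Kum N (p ^ n)
  gal := galEnd N (p ^ n)
  hecke := heckeEndNat N (p ^ n)
  finiteLevel := by
    have : Finite (Kum N (p ^ n)) := finite_Kum (pow_pos hp.pos n)
    exact finiteLevel_of_smooth _ (galKum_smooth N (p ^ n))
  kill := Kum.nsmul_eq_zero
  es := by
    intro ℓ hℓ hℓS A hA φ hφ x
    have : NeZero ℓ := ⟨hℓ.ne_zero⟩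
    have hℓN : ¬ ℓ ∣ N := fun h => hℓS (hNS ℓ hℓ h)
    have hℓp : ¬ ℓ ∣ N * p ^ n := fun h => (hℓ.dvd_mul.mp h).elim hℓN fun h' =>
      hℓS (((Nat.prime_dvd_prime_iff_eq hℓ hp).mp (hℓ.dvd_of_dvd_pow h')) ▸ hpS)
    rw [heckeEndNat_eq N _ hℓ hℓN]
    exact eichlerShimura_Kum (pow_pos hp.pos n).ne' hℓ hℓN (hcrux ℓ hℓ hℓp) A hA φ hφ x
  unram := by
    intro A hA τ hτ
    have hqN : ¬ q ∣ N := fun h => hqS (hNS q hq h)
    have hqp : ¬ q ∣ N * p ^ n := fun h => (hq.dvd_mul.mp h).elim hqN fun h' =>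
      hqS (((Nat.prime_dvd_prime_iff_eq hq hp).mp (hq.dvd_of_dvd_pow h')) ▸ hpS)
    ext x
    exact galKum_of_mem_inertia (pow_pos hp.pos n).ne' (hcrux q hq hqp) A hA τ hτ x

/-- **The input of S31 from the ES project**, given CRUX. -/
theorem esInput (hp : p.Prime) (hpS : p ∈ S) (hNS : ∀ q : ℕ, q.Prime → q ∣ N → q ∈ S)
    (hcrux : ∀ n ℓ : ℕ, ℓ.Prime → ¬ ℓ ∣ N * p ^ n → Crux N ℓ (p ^ n)) : ESInput N p S := by
  obtain ⟨c, hc⟩ := Rel.exists_shift (perL_injective N) (CuspForm.heckeAlgebra N 2 (↑S : Set ℕ)) p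
  refine ⟨c, fun q hq hqS n => ⟨kumTest hp hpS hNS q n hq hqS (hcrux n), ?_⟩⟩
  intro ℓ ℓ' hℓ hℓN hℓS hℓ' hℓN' hℓS' f f' hff
  have hff' : aeval (heckeEndNat N (p ^ n) ℓ) f = aeval (heckeEndNat N (p ^ n) ℓ') f' := hff
  set g : D.GoodPrime N := ⟨ℓ, hℓ, hℓN⟩ with hg
  set g' : D.GoodPrime N := ⟨ℓ', hℓ', hℓN'⟩ with hg'
  set F : FreeAlgebra ℤ (D.GoodPrime N) :=
    aeval (FreeAlgebra.ι ℤ g) f - aeval (FreeAlgebra.ι ℤ g') f' with hF
  have hlift : ∀ {B : Type} [Ring B] [Algebra ℤ B] (b : D.GoodPrime N → B),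
      FreeAlgebra.lift ℤ b F = aeval (b g) f - aeval (b g') f' := by
    intro B _ _ b
    rw [hF, map_sub, ← aeval_algHom_apply, ← aeval_algHom_apply, FreeAlgebra.lift_ι_apply,
      FreeAlgebra.lift_ι_apply]
  have h0 : FreeAlgebra.lift ℤ (heckeT N (p ^ n)) F = 0 := by
    rw [hlift, sub_eq_zero, ← equiv_heckeEndNat N _ hℓ hℓN, ← equiv_heckeEndNat N _ hℓ' hℓN']
    have e : ∀ (s : AddMonoid.End (Kum N (p ^ n))) (k : ℤ[X]),
        aeval (addMonoidEndRingEquivInt (Kum N (p ^ n)) s) k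
          = addMonoidEndRingEquivInt (Kum N (p ^ n)) (aeval s k) := fun s k =>
      aeval_algHom_apply ((addMonoidEndRingEquivInt (Kum N (p ^ n))).toRingHom.toIntAlgHom) s k
    rw [e, e, hff']
  obtain ⟨A', hA'⟩ := strongSupp_Kum (pow_pos hp.pos n) F h0
  refine hc n A' _ ?_
  rw [hlift] at hA'
  have e : ∀ (s : CuspForm.heckeAlgebra N 2 (↑S : Set ℕ)) (k : ℤ[X]),
      ((aeval s k : CuspForm.heckeAlgebra N 2 (↑S : Set ℕ)) :
        Module.End ℂ (CuspForm (CongruenceSubgroup.Gamma0 N) 2))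
        = aeval (s : Module.End ℂ (CuspForm (CongruenceSubgroup.Gamma0 N) 2)) k := fun s k =>
    (aeval_algHom_apply (CuspForm.heckeAlgebra N 2 (↑S : Set ℕ)).val s k).symm
  rw [AddSubgroupClass.coe_sub, e, e]
  exact hA'

end

end Fermat.Agent.S31
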