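/-
S31 from the core statement of CRUX.  When `Fermat.Agent.Crux.CoreStatement` is proved (say by
`core`), `Fermat/Agent/S31.lean` is the template with
`exact Fermat.Agent.S31.of_core core hp hp𝒪 hpS hNS H q hq hqS`.
-/
import Fermat.Agent.S31.Glue
import Fermat.Agent.Crux.Reduce

set_option autoImplicit false

namespace Fermat.Agent.S31

variable {p : ℕ} {N : ℕ} [NeZero N] {S : Finset ℕ}
  {𝒪 : Type} [CommRing 𝒪] [IsDomain 𝒪] [IsDiscreteValuationRing 𝒪]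
  [IsAdicComplete (IsLocalRing.maximalIdeal 𝒪) 𝒪]
  {θ : CuspForm.heckeAlgebra N 2 (↑S : Set ℕ) →+* IsLocalRing.ResidueField 𝒪}
  {T : Type} [CommRing T] [IsLocalRing T] [IsNoetherianRing T]
  [IsAdicComplete (IsLocalRing.maximalIdeal T) T] [Algebra 𝒪 T] [IsLocalHom (algebraMap 𝒪 T)]
  [Module.Finite 𝒪 T] [Module.Free 𝒪 T]

theorem of_crux
    (hcrux : ∀ (N ℓ m : ℕ) [NeZero N], ℓ.Prime → ¬ ℓ ∣ N → ¬ ℓ ∣ m → Fermat.Agent.ES.Crux N ℓ m)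
    (hp : p.Prime)
    (hp𝒪 : (p : 𝒪) ∈ IsLocalRing.maximalIdeal 𝒪) (hpS : p ∈ S)
    (hNS : ∀ q : ℕ, q.Prime → q ∣ N → q ∈ S)
    (H : CuspForm.HeckeGaloisRepDatum N (↑S : Set ℕ) 𝒪 θ T)
    (q : ℕ) (hq : q.Prime) (hqS : q ∉ S) :
    H.ρ.IsUnramifiedAt q :=
  of_esInput (esInput hp hpS hNS fun n ℓ hℓ h =>
    hcrux N ℓ (p ^ n) hℓ (fun h' => h (Dvd.dvd.mul_right h' _)) (fun h' => h (Dvd.dvd.mul_left h' _)))
    hp hp𝒪 hpS hNS H q hq hqS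

theorem of_core (core : Fermat.Agent.Crux.CoreStatement) (hp : p.Prime)
    (hp𝒪 : (p : 𝒪) ∈ IsLocalRing.maximalIdeal 𝒪) (hpS : p ∈ S)
    (hNS : ∀ q : ℕ, q.Prime → q ∣ N → q ∈ S)
    (H : CuspForm.HeckeGaloisRepDatum N (↑S : Set ℕ) 𝒪 θ T)
    (q : ℕ) (hq : q.Prime) (hqS : q ∉ S) :
    H.ρ.IsUnramifiedAt q :=
  of_crux (fun N ℓ m _ hℓ hN hm => Fermat.Agent.Crux.crux_of_core core N ℓ m hℓ hN hm)
    hp hp𝒪 hpS hNS H q hq hqS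

end Fermat.Agent.S31
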