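/-
S31 / S34 : the generic transfer lemma.  If `g ∈ G_ℚ` satisfies `g² - c g + d = 0` (`c d : ℤ`) on
all test modules and acts on `μ_{p^n}` through `d`, then `charpoly ρ(g) = X² - c X + d`.
-/
import Mathlib
import Fermat.Agent.S31.Core
import Fermat.Prelude.Def_GaloisRep_LocalConditions

set_option autoImplicit false

namespace Fermat.Agent.S31

open Polynomial IsLocalRing

theorem det_sub_mem_of_congr {T : Type*} [CommRing T] [Nontrivial T] (I : Ideal T) {V : Type*}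
    [AddCommGroup V] [Module T V] [Module.Free T V] [Module.Finite T V]
    (hV : Module.finrank T V = 2) (f g : Module.End T V)
    (h : ∀ v, f v - g v ∈ I • (⊤ : Submodule T V)) :
    LinearMap.det f - LinearMap.det g ∈ I := by
  have h1 := FD.charpoly_map_quotient_eq I f g h
  rw [FD.charpoly_rank_two hV, FD.charpoly_rank_two hV] at h1
  have h2 := congrArg (fun p => p.coeff 0) h1
  rw [← Ideal.Quotient.eq]
  simpa [coeff_map, coeff_X, coeff_C] using h2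

theorem intCast_end_eq_of_modEq {M : Type*} [AddCommGroup M] {m : ℕ} {a b : ℤ}
    (hkill : ∀ x : M, m • x = 0) (hab : a ≡ b [ZMOD m]) :
    ((a : ℤ) : AddMonoid.End M) = ((b : ℤ) : AddMonoid.End M) := by
  obtain ⟨t, ht⟩ := hab.symm.dvd
  have ha : a = b + m * t := by linarith
  ext x
  rw [AddMonoid.End.intCast_apply, AddMonoid.End.intCast_apply, ha, add_smul, mul_smul,
    natCast_zsmul, hkill, add_zero]

section

variable {T : Type} [CommRing T] [IsLocalRing T] (ρ : GaloisRepAdic T) {p : ℕ} (hp : p.Prime)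
  (S : Finset ℕ) (hpS : p ∈ S) (a : ℕ → T)
  (hchar : ∀ ℓ : ℕ, ℓ.Prime → ℓ ∉ S → ∀ A : ValuationSubring Qb, A.LiesOverPrime ℓ →
    ∀ φ : GQ, A.IsFrobeniusAt φ ℓ →
      LinearMap.charpoly (ρ.ρ φ) = X ^ 2 - C (a ℓ) * X + C ((ℓ : ℕ) : T))

include hp hpS hchar in
/-- `approx` with the determinant. -/
theorem approx_det {q n : ℕ} (Y : TestModule p S q n) (k : ℕ) (ζ : Qb) (hζ : ζ ^ (p ^ n) = 1)
    (g : GQ) :
    ∃ (ℓ j : ℕ), ℓ.Prime ∧ ℓ ∉ S ∧ g ζ = ζ ^ (ℓ ^ j) ∧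
      aeval (Y.hecke ℓ) (dickson 1 ((ℓ : ℕ) : ℤ) j) =
        Y.gal g + ((ℓ ^ j : ℕ) : AddMonoid.End Y.M) * Y.gal g⁻¹ ∧
      LinearMap.trace T ρ.V (ρ.ρ g) - aeval (a ℓ) (dickson 1 ((ℓ : ℕ) : ℤ) j) ∈
        maximalIdeal T ^ k ∧
      LinearMap.det (ρ.ρ g) - ((ℓ ^ j : ℕ) : T) ∈ maximalIdeal T ^ k := by
  obtain ⟨L₁, hL₁, h₁⟩ := Y.finiteLevel
  obtain ⟨L₂, hL₂, h₂⟩ := ρ.isAdicContinuous k
  have hpn : p ^ n ≠ 0 := pow_ne_zero _ hp.ne_zero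
  have hζint : IsIntegral ℚ ζ :=
    ⟨X ^ (p ^ n) - 1, monic_X_pow_sub_C 1 hpn, by simp [hζ]⟩
  let L₃ : IntermediateField ℚ Qb := IntermediateField.adjoin ℚ {ζ}
  have hL₃ : FiniteDimensional ℚ L₃ := IntermediateField.adjoin.finiteDimensional hζint
  obtain ⟨ℓ, A, φ, U, hℓ, hℓS, hA, hφ, hU, -, -, ⟨j, hj⟩⟩ :=
    FD.exists_frobenius_field (L₁ ⊔ L₂ ⊔ L₃) g S
  obtain ⟨u, hu, e⟩ : ∃ u ∈ U, φ ^ j = g * u := ⟨g⁻¹ * φ ^ j, hj, by group⟩
  have hU₁ : ∀ w ∈ U, Y.gal w = 1 := fun w hw => h₁ w fun x hx =>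
    hU w hw x ((le_sup_left : L₁ ⊔ L₂ ≤ L₁ ⊔ L₂ ⊔ L₃) ((le_sup_left : L₁ ≤ L₁ ⊔ L₂) hx))
  have hℓp : ¬ ℓ ∣ p ^ n := by
    intro h
    have := (Nat.prime_dvd_prime_iff_eq hℓ hp).mp (hℓ.dvd_of_dvd_pow h)
    exact hℓS (this ▸ hpS)
  have hV := ρ.finrank_eq
  have hc := hchar ℓ hℓ hℓS A hA φ hφ
  rw [FD.charpoly_rank_two hV] at hc
  have htr : LinearMap.trace T ρ.V (ρ.ρ φ) = a ℓ := by
    have := congrArg (fun p => p.coeff 1) hc
    simpa [coeff_X, coeff_C] using this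
  have hdet : LinearMap.det (ρ.ρ φ) = (((ℓ : ℕ) : ℤ) : T) := by
    have := congrArg (fun p => p.coeff 0) hc
    simpa [coeff_X, coeff_C] using this
  have hcongr : ∀ v, ρ.ρ g v - (ρ.ρ φ ^ j) v ∈ maximalIdeal T ^ k • (⊤ : Submodule T ρ.V) := by
    intro v
    have h5 := h₂ u (fun x hx => hU u hu x
      ((le_sup_left : L₁ ⊔ L₂ ≤ L₁ ⊔ L₂ ⊔ L₃) ((le_sup_right : L₂ ≤ L₁ ⊔ L₂) hx))) v
    have h6 : ρ.ρ g v - (ρ.ρ φ ^ j) v = - ρ.ρ g (ρ.ρ u v - v) := by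
      rw [← map_pow, e, map_mul, map_sub]
      simp
    rw [h6]
    exact Submodule.neg_mem _ (Submodule.smul_top_le_comap_smul_top _ (ρ.ρ g) h5)
  refine ⟨ℓ, j, hℓ, hℓS, ?_, ?_, ?_, ?_⟩
  · -- action on `ζ`
    rw [← frob_pow_apply_root A hℓ hA φ hφ hℓp hζ j, e, AlgEquiv.mul_apply]
    congr 1
    exact (hU u hu ζ ((le_sup_right : L₃ ≤ L₁ ⊔ L₂ ⊔ L₃)
      (IntermediateField.mem_adjoin_simple_self ℚ ζ))).symm
  · -- the Eichler-Shimura relation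
    set u₀ : AddMonoid.End Y.M := Y.gal φ with hu₀
    set w₀ : AddMonoid.End Y.M := Y.gal φ⁻¹ with hw₀
    have huw : u₀ * w₀ = 1 := by rw [hu₀, hw₀, ← map_mul, mul_inv_cancel, map_one]
    set v₀ : AddMonoid.End Y.M := Y.hecke ℓ - u₀ with hv₀
    have hvu : v₀ * u₀ = ((ℓ : ℕ) : AddMonoid.End Y.M) := by
      ext x
      have := Y.es ℓ hℓ hℓS A hA φ hφ x
      rw [AddMonoid.End.natCast_apply]
      show Y.hecke ℓ (Y.gal φ x) - Y.gal φ (Y.gal φ x) = ℓ • x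
      have h0 : ℓ • x - (Y.hecke ℓ (Y.gal φ x) - Y.gal φ (Y.gal φ x)) =
          Y.gal φ (Y.gal φ x) - Y.hecke ℓ (Y.gal φ x) + ℓ • x := by abel
      exact (sub_eq_zero.mp (h0.trans this)).symm
    have hv : v₀ = ((ℓ : ℕ) : AddMonoid.End Y.M) * w₀ := by
      rw [← hvu, mul_assoc, huw, mul_one]
    have huv : u₀ * v₀ = ((ℓ : ℕ) : AddMonoid.End Y.M) := by
      rw [hv, ← mul_assoc, (Nat.cast_commute ℓ u₀).eq.symm, mul_assoc, huw, mul_one]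
    have hcomm : Commute u₀ v₀ := by rw [Commute, SemiconjBy, huv, hvu]
    have h3 := aeval_dickson_add u₀ v₀ hcomm ((ℓ : ℕ) : ℤ) (by rw [huv]; simp) j
    have h4 : u₀ + v₀ = Y.hecke ℓ := by rw [hv₀]; abel
    rw [h4] at h3
    rw [h3]
    have h5 : u₀ ^ j = Y.gal g := by
      rw [hu₀, ← map_pow, e, map_mul, hU₁ u hu, mul_one]
    have h6 : w₀ ^ j = Y.gal g⁻¹ := by
      have : φ⁻¹ ^ j = u⁻¹ * g⁻¹ := by rw [inv_pow, e, mul_inv_rev]
      rw [hw₀, ← map_pow, this, map_mul, hU₁ _ (U.inv_mem hu), one_mul]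
    rw [h5, hv, (Nat.cast_commute ℓ w₀).mul_pow, h6, Nat.cast_pow]
  · -- traces
    rw [← htr, ← trace_pow_eq_aeval_dickson hV (ρ.ρ φ) _ hdet j]
    exact trace_sub_mem_of_congr _ hV _ _ hcongr
  · -- determinants
    have h7 : ((ℓ ^ j : ℕ) : T) = LinearMap.det (ρ.ρ φ ^ j) := by
      rw [map_pow, hdet]
      push_cast
      rfl
    rw [h7]
    exact det_sub_mem_of_congr _ hV _ _ hcongr

include hp hpS hchar in
/-- **The transfer lemma.**  If `g` satisfies `g² - c g + d = 0` on enough test modules and acts on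
`μ_{p^n}` through `d`, then `charpoly ρ(g) = X² - c X + d`. -/
theorem charpoly_of_quadratic (hsep : ⨅ n : ℕ, maximalIdeal T ^ n = ⊥)
    (hpT : (p : T) ∈ maximalIdeal T) (g : GQ) (c d : ℤ)
    (htest : ∀ k : ℕ, ∃ (n q : ℕ) (Y : TestModule p S q n), k ≤ n ∧
      (∀ ζ : Qb, ζ ^ (p ^ n) = 1 → ∃ e : ℕ, g ζ = ζ ^ e ∧ (e : ℤ) ≡ d [ZMOD (p ^ n : ℕ)]) ∧
      (∀ x : Y.M, Y.gal g (Y.gal g x) - c • Y.gal g x + d • x = 0) ∧
      ∀ ℓ ℓ' : ℕ, ℓ.Prime → ℓ ∉ S → ℓ'.Prime → ℓ' ∉ S → ∀ f f' : ℤ[X],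
        aeval (Y.hecke ℓ) f = aeval (Y.hecke ℓ') f' →
          aeval (a ℓ) f - aeval (a ℓ') f' ∈ maximalIdeal T ^ k) :
    LinearMap.charpoly (ρ.ρ g) = X ^ 2 - C (c : T) * X + C (d : T) := by
  have key : ∀ k : ℕ, LinearMap.trace T ρ.V (ρ.ρ g) - (c : T) ∈ maximalIdeal T ^ k ∧
      LinearMap.det (ρ.ρ g) - (d : T) ∈ maximalIdeal T ^ k := by
    intro k
    obtain ⟨n, q, Y, hkn, hcyc, hquad, hfaith⟩ := htest k
    have hpn : p ^ n ≠ 0 := pow_ne_zero _ hp.ne_zero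
    have : NeZero (p ^ n) := ⟨hpn⟩
    obtain ⟨ζ, hζ⟩ : ∃ ζ : Qb, IsPrimitiveRoot ζ (p ^ n) :=
      HasEnoughRootsOfUnity.exists_primitiveRoot Qb (p ^ n)
    have hζ1 := hζ.pow_eq_one
    obtain ⟨ℓ, j, hℓ, hℓS, hz, hM, ht, hd⟩ := approx_det ρ hp S hpS a hchar Y k ζ hζ1 g
    obtain ⟨e, he, hed⟩ := hcyc ζ hζ1
    have hmod : ((ℓ ^ j : ℕ) : ℤ) ≡ d [ZMOD (p ^ n : ℕ)] := by
      refine Int.ModEq.trans ?_ hed
      exact (Int.natCast_modEq_iff.mpr (modEq_of_pow_eq hpn hζ (hz.symm.trans he)))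
    -- the relation on `Y.M`
    have hgg : Y.gal g * Y.gal g⁻¹ = 1 := by rw [← map_mul, mul_inv_cancel, map_one]
    have hq1 : Y.gal g + ((d : ℤ) : AddMonoid.End Y.M) * Y.gal g⁻¹ = ((c : ℤ) : AddMonoid.End Y.M) := by
      ext x
      have h1 := hquad (Y.gal g⁻¹ x)
      have h2 : Y.gal g (Y.gal g⁻¹ x) = x := by
        have := congrArg (fun f : AddMonoid.End Y.M => f x) hgg
        exact this
      rw [h2] at h1
      show Y.gal g x + ((d : ℤ) : AddMonoid.End Y.M) (Y.gal g⁻¹ x) = ((c : ℤ) : AddMonoid.End Y.M) x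
      rw [AddMonoid.End.intCast_apply, AddMonoid.End.intCast_apply]
      have h3 : Y.gal g x + d • Y.gal g⁻¹ x - c • x
          = Y.gal g x - c • x + d • (Y.gal g⁻¹ x) := by abel
      exact sub_eq_zero.mp (h3.trans h1)
    have hcast : ((ℓ ^ j : ℕ) : AddMonoid.End Y.M) = ((d : ℤ) : AddMonoid.End Y.M) := by
      rw [← intCast_end_eq_of_modEq Y.kill hmod]
      simp
    have heq : aeval (Y.hecke ℓ) (dickson 1 ((ℓ : ℕ) : ℤ) j) = aeval (Y.hecke ℓ) (C c : ℤ[X]) := by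
      rw [hM, hcast, hq1, aeval_C]
      rfl
    have h1 := hfaith ℓ ℓ hℓ hℓS hℓ hℓS _ _ heq
    rw [aeval_C] at h1
    have h1' : aeval (a ℓ) (dickson 1 ((ℓ : ℕ) : ℤ) j) - (c : T) ∈ maximalIdeal T ^ k := h1
    constructor
    · have h2 : LinearMap.trace T ρ.V (ρ.ρ g) - (c : T)
          = (LinearMap.trace T ρ.V (ρ.ρ g) - aeval (a ℓ) (dickson 1 ((ℓ : ℕ) : ℤ) j))
            + (aeval (a ℓ) (dickson 1 ((ℓ : ℕ) : ℤ) j) - (c : T)) := by ring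
      rw [h2]
      exact Ideal.add_mem _ ht h1'
    · obtain ⟨t, ht'⟩ := hmod.symm.dvd
      have h3 : ((ℓ ^ j : ℕ) : T) - (d : T) = ((p : T) ^ n) * (t : T) := by
        have := congrArg (Int.cast : ℤ → T) ht'
        push_cast at this
        push_cast
        exact this
      have h4 : ((ℓ ^ j : ℕ) : T) - (d : T) ∈ maximalIdeal T ^ k := by
        rw [h3]
        exact Ideal.mul_mem_right _ _ (Ideal.pow_le_pow_right hkn (Ideal.pow_mem_pow hpT n))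
      have h2 : LinearMap.det (ρ.ρ g) - (d : T)
          = (LinearMap.det (ρ.ρ g) - ((ℓ ^ j : ℕ) : T)) + (((ℓ ^ j : ℕ) : T) - (d : T)) := by ring
      rw [h2]
      exact Ideal.add_mem _ hd h4
  have htr : LinearMap.trace T ρ.V (ρ.ρ g) = (c : T) := by
    rw [← sub_eq_zero, ← Ideal.mem_bot, ← hsep, Ideal.mem_iInf]
    exact fun k => (key k).1
  have hdet : LinearMap.det (ρ.ρ g) = (d : T) := by
    rw [← sub_eq_zero, ← Ideal.mem_bot, ← hsep, Ideal.mem_iInf]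
    exact fun k => (key k).2
  rw [FD.charpoly_rank_two ρ.finrank_eq, htr, hdet]

include hp hpS hchar in
/-- **Unipotent inertia from the test modules** (conclusion of S34): if `(σ - 1)² = 0` on enough
test modules for all `σ` in the inertia groups at `q ≠ p`, then `ρ` is unipotent on inertia at
`q`. -/
theorem isUnipotentOnInertiaAt_of_tests (hsep : ⨅ n : ℕ, maximalIdeal T ^ n = ⊥)
    (hpT : (p : T) ∈ maximalIdeal T) (q : ℕ) (hq : q.Prime) (hqp : q ≠ p)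
    (htest : ∀ k : ℕ, ∃ (n q' : ℕ) (Y : TestModule p S q' n), k ≤ n ∧
      (∀ P : ValuationSubring Qb, P.LiesOverPrime q → ∀ σ ∈ P.inertiaSubgroupIn ℚ,
        ∀ x : Y.M, Y.gal σ (Y.gal σ x) - (2 : ℤ) • Y.gal σ x + x = 0) ∧
      ∀ ℓ ℓ' : ℕ, ℓ.Prime → ℓ ∉ S → ℓ'.Prime → ℓ' ∉ S → ∀ f f' : ℤ[X],
        aeval (Y.hecke ℓ) f = aeval (Y.hecke ℓ') f' →
          aeval (a ℓ) f - aeval (a ℓ') f' ∈ maximalIdeal T ^ k) :
    ρ.IsUnipotentOnInertiaAt q := by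
  intro P hP σ hσ
  have h := charpoly_of_quadratic ρ hp S hpS a hchar hsep hpT σ 2 1 (fun k => by
    obtain ⟨n, q', Y, hkn, hquad, hfaith⟩ := htest k
    refine ⟨n, q', Y, hkn, fun ζ hζ => ⟨1, ?_, by simp⟩, fun x => ?_, hfaith⟩
    · have hqp' : ¬ q ∣ p ^ n := by
        intro h
        exact hqp ((Nat.prime_dvd_prime_iff_eq hq hp).mp (hq.dvd_of_dvd_pow h))
      rw [pow_one, inertia_apply_root P hq hP σ hσ hqp' hζ]
    · rw [one_smul]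
      exact hquad P hP σ hσ x)
  rw [h]
  simp only [Int.cast_ofNat, Int.cast_one, map_one]
  have : (C (2 : T) : T[X]) = 2 := rfl
  rw [this]
  ring

end

end Fermat.Agent.S31
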