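/-
S34 from CRUX and the "S34-core" statement `(σ - 1)² = 0` on all `Kum N (p ^ n)`, `σ` in an inertia
group at `q`.
-/
import Fermat.Agent.S31.Glue
import Fermat.Agent.S31.Transfer

set_option autoImplicit false

namespace Fermat.Agent.S31

open Polynomial IsLocalRing Fermat.Agent.ES Fermat.Agent.ES.Glue

noncomputable section

variable {N : ℕ} [NeZero N] {p : ℕ} {S : Finset ℕ}

/-- the faithfulness clause for the explicit test modules `kumTest`. -/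
theorem faith_kumTest (hp : p.Prime) (N : ℕ) [NeZero N] (S : Finset ℕ) :
    ∃ c : ℕ, ∀ (n : ℕ) (ℓ ℓ' : ℕ) (hℓ : ℓ.Prime) (hℓN : ¬ ℓ ∣ N) (hℓS : ℓ ∉ (↑S : Set ℕ))
      (hℓ' : ℓ'.Prime) (hℓN' : ¬ ℓ' ∣ N) (hℓS' : ℓ' ∉ (↑S : Set ℕ)) (f f' : ℤ[X]),
      aeval (heckeEndNat N (p ^ n) ℓ) f = aeval (heckeEndNat N (p ^ n) ℓ') f' →
      ∃ z : CuspForm.heckeAlgebra N 2 (↑S : Set ℕ),
        aeval (CuspForm.heckeAlgebra.T hℓ hℓN hℓS : CuspForm.heckeAlgebra N 2 (↑S : Set ℕ)) f -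
          aeval (CuspForm.heckeAlgebra.T hℓ' hℓN' hℓS' : CuspForm.heckeAlgebra N 2 (↑S : Set ℕ)) f'
            = (p ^ (n - c) : ℕ) • z := by
  obtain ⟨c, hc⟩ := Rel.exists_shift (perL_injective N) (CuspForm.heckeAlgebra N 2 (↑S : Set ℕ)) p
  refine ⟨c, fun n => ?_⟩
  intro ℓ ℓ' hℓ hℓN hℓS hℓ' hℓN' hℓS' f f' hff'
  set g : D.GoodPrime N := ⟨ℓ, hℓ, hℓN⟩ with hg
  set g' : D.GoodPrime N := ⟨ℓ', hℓ', hℓN'⟩ with hg'
  set F : FreeAlgebra ℤ (D.GoodPrime N) :=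
    aeval (FreeAlgebra.ι ℤ g) f - aeval (FreeAlgebra.ι ℤ g') f' with hF
  have hlift : ∀ {B : Type} [Ring B] [Algebra ℤ B] (b : D.GoodPrime N → B),
      FreeAlgebra.lift ℤ b F = aeval (b g) f - aeval (b g') f' := by
    intro B _ _ b
    rw [hF, map_sub, ← aeval_algHom_apply, ← aeval_algHom_apply, FreeAlgebra.lift_ι_apply,
      FreeAlgebra.lift_ι_apply]
  have h0 : FreeAlgebra.lift ℤ (heckeT N (p ^ n)) F = 0 := by
    rw [hlift, sub_eq_zero, ← equiv_heckeEndNat N _ hℓ hℓN, ← equiv_heckeEndNat N _ hℓ' hℓN']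
    have e : ∀ (s : AddMonoid.End (Kum N (p ^ n))) (k : ℤ[X]),
        aeval (addMonoidEndRingEquivInt (Kum N (p ^ n)) s) k
          = addMonoidEndRingEquivInt (Kum N (p ^ n)) (aeval s k) := fun s k =>
      aeval_algHom_apply ((addMonoidEndRingEquivInt (Kum N (p ^ n))).toRingHom.toIntAlgHom) s k
    rw [e, e, hff']
  obtain ⟨A', hA'⟩ := strongSupp_Kum (pow_pos hp.pos n) F h0
  refine hc n A' _ ?_
  rw [hlift] at hA'
  have e : ∀ (s : CuspForm.heckeAlgebra N 2 (↑S : Set ℕ)) (k : ℤ[X]),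
      ((aeval s k : CuspForm.heckeAlgebra N 2 (↑S : Set ℕ)) :
        Module.End ℂ (CuspForm (CongruenceSubgroup.Gamma0 N) 2))
        = aeval (s : Module.End ℂ (CuspForm (CongruenceSubgroup.Gamma0 N) 2)) k := fun s k =>
    (aeval_algHom_apply (CuspForm.heckeAlgebra N 2 (↑S : Set ℕ)).val s k).symm
  rw [AddSubgroupClass.coe_sub, e, e]
  exact hA'

variable
  {𝒪 : Type} [CommRing 𝒪] [IsDomain 𝒪] [IsDiscreteValuationRing 𝒪]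
  [IsAdicComplete (IsLocalRing.maximalIdeal 𝒪) 𝒪]
  {θ : CuspForm.heckeAlgebra N 2 (↑S : Set ℕ) →+* IsLocalRing.ResidueField 𝒪}
  {T : Type} [CommRing T] [IsLocalRing T] [IsNoetherianRing T]
  [IsAdicComplete (IsLocalRing.maximalIdeal T) T] [Algebra 𝒪 T] [IsLocalHom (algebraMap 𝒪 T)]
  [Module.Finite 𝒪 T] [Module.Free 𝒪 T]

/-- **The transfer lemma for a Hecke-Galois datum**: an element `g ∈ G_ℚ` which satisfies
`g² - c g + d = 0` on all `Kum N (p ^ n)` and acts on `μ_{p^n}` through `d` has characteristic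
polynomial `X² - c X + d` in `H.ρ`. -/
theorem charpoly_of_quadratic_Kum
    (hcrux : ∀ n ℓ : ℕ, ℓ.Prime → ¬ ℓ ∣ N * p ^ n → Crux N ℓ (p ^ n))
    (hp : p.Prime) (hp𝒪 : (p : 𝒪) ∈ IsLocalRing.maximalIdeal 𝒪) (hpS : p ∈ S)
    (hNS : ∀ q : ℕ, q.Prime → q ∣ N → q ∈ S)
    (H : CuspForm.HeckeGaloisRepDatum N (↑S : Set ℕ) 𝒪 θ T) (g : GQ) (c d : ℤ)
    (hcyc : ∀ (n : ℕ) (ζ : Qb), ζ ^ (p ^ n) = 1 →
      ∃ e : ℕ, g ζ = ζ ^ e ∧ (e : ℤ) ≡ d [ZMOD (p ^ n : ℕ)])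
    (hquad : ∀ (n : ℕ) (x : Kum N (p ^ n)),
      galKum N (p ^ n) g (galKum N (p ^ n) g x) - c • galKum N (p ^ n) g x + d • x = 0) :
    LinearMap.charpoly (H.ρ.ρ g) = X ^ 2 - C (c : T) * X + C (d : T) := by
  classical
  obtain ⟨c₀, hc₀⟩ := faith_kumTest hp N S
  have hN : ∀ ℓ : ℕ, ℓ.Prime → ℓ ∉ S → ¬ ℓ ∣ N := fun ℓ hℓ hℓS h => hℓS (hNS ℓ hℓ h)
  have hS' : ∀ ℓ : ℕ, ℓ ∉ S → ℓ ∉ (↑S : Set ℕ) := fun ℓ h => by simpa using h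
  let a : ℕ → T := fun ℓ =>
    if h : ℓ.Prime ∧ ℓ ∉ S then H.π (CuspForm.heckeAlgebra.T h.1 (hN ℓ h.1 h.2) (hS' ℓ h.2)) else 0
  have ha : ∀ (ℓ : ℕ) (hℓ : ℓ.Prime) (hℓS : ℓ ∉ S),
      a ℓ = H.π (CuspForm.heckeAlgebra.T hℓ (hN ℓ hℓ hℓS) (hS' ℓ hℓS)) := by
    intro ℓ hℓ hℓS
    exact dif_pos ⟨hℓ, hℓS⟩
  have hpT : (p : T) ∈ maximalIdeal T := by
    have h1 : (p : T) = algebraMap 𝒪 T (p : 𝒪) := by rw [map_natCast]
    rw [h1]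
    exact map_nonunit (algebraMap 𝒪 T) _ hp𝒪
  -- an auxiliary prime outside `S`
  obtain ⟨q', hq'S, hq'⟩ : ∃ q', q' ∉ S ∧ q'.Prime := by
    obtain ⟨q', h1, h2⟩ := Nat.exists_infinite_primes (S.sup id + 1)
    refine ⟨q', fun h => ?_, h2⟩
    have := Finset.le_sup (f := id) h
    simp only [id] at this
    omega
  refine charpoly_of_quadratic H.ρ hp S hpS a ?_
    (Ideal.iInf_pow_eq_bot_of_isLocalRing _ Ideal.IsPrime.ne_top') hpT g c d ?_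
  · intro ℓ hℓ hℓS A hA φ hφ
    rw [ha ℓ hℓ hℓS]
    exact H.charpoly_frob ℓ hℓ (hN ℓ hℓ hℓS) (hS' ℓ hℓS) A hA φ hφ
  · intro k
    refine ⟨k + c₀, q', kumTest hp hpS hNS q' (k + c₀) hq' hq'S (hcrux (k + c₀)), by omega,
      hcyc (k + c₀), hquad (k + c₀), fun ℓ ℓ' hℓ hℓS hℓ' hℓS' f f' hff => ?_⟩
    obtain ⟨z, hz⟩ := hc₀ (k + c₀) ℓ ℓ' hℓ (hN ℓ hℓ hℓS) (hS' ℓ hℓS) hℓ' (hN ℓ' hℓ' hℓS')
      (hS' ℓ' hℓS') f f' hff
    have e : ∀ (s : CuspForm.heckeAlgebra N 2 (↑S : Set ℕ)) (g : ℤ[X]),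
        H.π (aeval s g) = aeval (H.π s) g := by
      intro s g
      exact (aeval_algHom_apply (H.π.toIntAlgHom) s g).symm
    have h1 := congrArg H.π hz
    rw [map_sub, e, e, ← ha ℓ hℓ hℓS, ← ha ℓ' hℓ' hℓS', map_nsmul, Nat.add_sub_cancel] at h1
    rw [h1, nsmul_eq_mul, Nat.cast_pow]
    exact Ideal.mul_mem_right _ _ (Ideal.pow_mem_pow hpT k)

/-- **S34 from CRUX and S34-core.** -/
theorem isUnipotentOnInertiaAt_of_Kum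
    (hcrux : ∀ n ℓ : ℕ, ℓ.Prime → ¬ ℓ ∣ N * p ^ n → Crux N ℓ (p ^ n))
    (hp : p.Prime) (hp𝒪 : (p : 𝒪) ∈ IsLocalRing.maximalIdeal 𝒪) (hpS : p ∈ S)
    (hNS : ∀ q : ℕ, q.Prime → q ∣ N → q ∈ S)
    (H : CuspForm.HeckeGaloisRepDatum N (↑S : Set ℕ) 𝒪 θ T)
    (q : ℕ) (hq : q.Prime) (hqp : q ≠ p)
    (hcore : ∀ (n : ℕ) (P : ValuationSubring Qb), P.LiesOverPrime q →
      ∀ σ ∈ P.inertiaSubgroupIn ℚ, ∀ x : Kum N (p ^ n),
        galKum N (p ^ n) σ (galKum N (p ^ n) σ x) - (2 : ℤ) • galKum N (p ^ n) σ x + x = 0) :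
    H.ρ.IsUnipotentOnInertiaAt q := by
  intro P hP σ hσ
  have h := charpoly_of_quadratic_Kum hcrux hp hp𝒪 hpS hNS H σ 2 1 (fun n ζ hζ => ⟨1, ?_, by simp⟩)
    (fun n x => by rw [one_smul]; exact hcore n P hP σ hσ x)
  · rw [h]
    simp only [Int.cast_ofNat, Int.cast_one, map_one]
    have : (C (2 : T) : T[X]) = 2 := rfl
    rw [this]
    ring
  · have hqp' : ¬ q ∣ p ^ n := by
      intro h
      exact hqp ((Nat.prime_dvd_prime_iff_eq hq hp).mp (hq.dvd_of_dvd_pow h))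
    rw [pow_one, inertia_apply_root P hq hP σ hσ hqp' hζ]

end

end Fermat.Agent.S31
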